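import Mathlib
import Fermat.Agent.Lib.Frob.Interfaces
import Fermat.Agent.Lib.Red.H382.Main
import Fermat.Agent.S05.C1b

/-!
# Piece A1 (helper382): reduction of prime-to-`ℓ` torsion, `ReductionData`

From the reduction homomorphism `Fermat.Agent.Lib.Red.H382.red` at a valuation subring `A` of `ℚ̄`
above a good prime `ℓ`:  `k := κ_A`, `red : W[n](ℚ̄) → (W mod ℓ)(k)` is injective (S05 C1: the
kernel of reduction has no `n`-torsion for `ℓ ∤ n`) and intertwines a Frobenius element `σ` at `A`
with the `ℓ`-power Frobenius of `(W mod ℓ)(k)`.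
-/

set_option autoImplicit false
set_option linter.unusedSectionVars false
set_option linter.unusedVariables false

open WeierstrassCurve WeierstrassCurve.Affine WeierstrassCurve.Affine.Point

namespace Fermat.Agent.Lib.Frob.A1.H382

open Fermat.Agent.Lib.Red.H382 Fermat.Agent.S05.SameRed Fermat.Agent.Lib.Frob

/-! ### transport of points along an equality of curves -/

section cast

variable {F : Type*} [Field F] [DecidableEq F]

/-- transport of points along an equality of curves -/
noncomputable def pointCast {W₁ W₂ : Affine F} (h : W₁ = W₂) : W₁.Point ≃+ W₂.Point := by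
  subst h; exact AddEquiv.refl _

lemma pointCast_some {W₁ W₂ : Affine F} (h : W₁ = W₂) {x y : F} (hxy : W₁.Nonsingular x y) :
    pointCast h (Point.some x y hxy) = Point.some x y (h ▸ hxy) := by
  subst h; rfl

lemma pointCast_symm_some {W₁ W₂ : Affine F} (h : W₁ = W₂) {x y : F}
    (hxy : W₂.Nonsingular x y) :
    (pointCast h).symm (Point.some x y hxy) = Point.some x y (h ▸ hxy) := by
  subst h; rfl

end cast

/-! ### integers in a valuation subring above `ℓ` -/

section ints

variable {L : Type*} [Field L] (A : ValuationSubring L) {ℓ : ℕ}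

lemma val_intCast_le_one (m : ℤ) : A.valuation (m : L) ≤ 1 :=
  (A.valuation_le_one_iff _).mpr (intCast_mem A m)

lemma val_intCast_eq_one (hℓ : ℓ.Prime) (hA : (ℓ : L) ∈ A.nonunits) {m : ℤ}
    (hm : ¬ (ℓ : ℤ) ∣ m) : A.valuation (m : L) = 1 := by
  have hcop : IsCoprime (ℓ : ℤ) m :=
    (Prime.coprime_iff_not_dvd (Nat.prime_iff_prime_int.mp hℓ)).mpr hm
  obtain ⟨a, b, hab⟩ := hcop
  have hℓv : A.valuation (ℓ : L) < 1 := A.mem_nonunits_iff.mp hA
  have h1 : A.valuation ((a : L) * (ℓ : L)) < 1 := by
    rw [map_mul]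
    exact lt_of_le_of_lt (mul_le_of_le_one_left' (val_intCast_le_one A a)) hℓv
  have hab' : (a : L) * (ℓ : L) + (b : L) * (m : L) = 1 := by
    have := congrArg (fun t : ℤ => (t : L)) hab
    simpa using this
  have h2 : A.valuation ((b : L) * (m : L)) = 1 := by
    have e : (b : L) * (m : L) = 1 + -((a : L) * (ℓ : L)) := by
      rw [← hab']; ring
    rw [e, (A.valuation).map_add_eq_of_lt_left (by rwa [Valuation.map_neg, map_one]), map_one]
  refine le_antisymm (val_intCast_le_one A m) ?_
  rw [← h2, map_mul]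
  exact mul_le_of_le_one_left' (val_intCast_le_one A b)

lemma val_natCast_eq_one (hℓ : ℓ.Prime) (hA : (ℓ : L) ∈ A.nonunits) {n : ℕ}
    (hn : ¬ ℓ ∣ n) : A.valuation (n : L) = 1 := by
  have := val_intCast_eq_one A hℓ hA (m := (n : ℤ)) (by exact_mod_cast hn)
  simpa using this

/-- the residue field has characteristic `ℓ` -/
lemma charP_residueField (hℓ : ℓ.Prime) (hA : (ℓ : L) ∈ A.nonunits) :
    CharP (IsLocalRing.ResidueField A) ℓ := by
  rw [CharP.charP_iff_prime_eq_zero hℓ]
  have h : ((ℓ : A) : L) ∈ A.nonunits := by simpa using hA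
  have hmem : (ℓ : A) ∈ IsLocalRing.maximalIdeal A := by
    rw [A.valuation_lt_one_iff]
    exact A.mem_nonunits_iff.mp h
  have := (IsLocalRing.residue_eq_zero_iff (ℓ : A)).mpr hmem
  simpa using this

end ints

end Fermat.Agent.Lib.Frob.A1.H382
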