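import Mathlib
import Fermat.Agent.Lib.Frob.A1.H382.Reduction

/-!
# Piece A1 (helper382): `reductionData : ReductionData`
-/

set_option autoImplicit false
set_option linter.unusedSectionVars false
set_option linter.unusedVariables false

open WeierstrassCurve WeierstrassCurve.Affine WeierstrassCurve.Affine.Point

namespace Fermat.Agent.Lib.Frob.A1.H382

open Fermat.Agent.Lib.Red.H382 Fermat.Agent.S05.SameRed Fermat.Agent.Lib.Frob

variable (W : WeierstrassCurve ℤ) (ℓ : ℕ) [Fact ℓ.Prime] (A : ValuationSubring Qb)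

/-- the integral model over `A` -/
noncomputable abbrev WA : WeierstrassCurve A := W.map (Int.castRingHom A)

lemma curveK : (WA W A)⁄Qb = (W.map (Int.castRingHom ℚ))⁄Qb := by
  show (W.map _).map _ = (W.map _).map _
  rw [WeierstrassCurve.map_map, WeierstrassCurve.map_map,
    RingHom.ext_int ((algebraMap A Qb).comp (Int.castRingHom A))
      ((algebraMap ℚ Qb).comp (Int.castRingHom ℚ))]

lemma curveκ [Algebra (ZMod ℓ) (IsLocalRing.ResidueField A)] :
    (WA W A)⁄(IsLocalRing.ResidueField A) = (W.reductionMod ℓ)⁄(IsLocalRing.ResidueField A) := by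
  show (W.map _).map _ = (W.map _).map _
  rw [WeierstrassCurve.map_map, WeierstrassCurve.map_map,
    RingHom.ext_int ((algebraMap A (IsLocalRing.ResidueField A)).comp (Int.castRingHom A))
      ((algebraMap (ZMod ℓ) (IsLocalRing.ResidueField A)).comp (Int.castRingHom (ZMod ℓ)))]

lemma isUnit_Δ (hA : A.LiesOverPrime ℓ) (hgood : W.IsGoodPrimeFor ℓ) : IsUnit (WA W A).Δ := by
  have h : (WA W A).Δ = ((W.Δ : ℤ) : A) := WeierstrassCurve.map_Δ W (Int.castRingHom A)
  rw [h, A.valuation_eq_one_iff]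
  have := val_intCast_eq_one A (Fact.out : ℓ.Prime) hA hgood
  simpa using this

section

variable [DecidableEq (IsLocalRing.ResidueField A)] [Algebra (ZMod ℓ) (IsLocalRing.ResidueField A)]
variable {W ℓ A}
variable (hΔ : IsUnit (WA W A).Δ)

/-- reduction on all points, with the types of the interface -/
noncomputable def redPts :
    Pts W →+ ((W.reductionMod ℓ)⁄(IsLocalRing.ResidueField A)).Point :=
  (pointCast (curveκ W ℓ A)).toAddMonoidHom.comp
    ((red A (WA W A) hΔ).comp (pointCast (curveK W A).symm).toAddMonoidHom)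

lemma redPts_apply (P : Pts W) :
    redPts (ℓ := ℓ) hΔ P =
      pointCast (curveκ W ℓ A) (redFun A (WA W A) hΔ (pointCast (curveK W A).symm P)) := rfl

lemma redPts_some_of_mem {x y : Qb} (h : ((W.map (Int.castRingHom ℚ))⁄Qb).Nonsingular x y)
    (hx : x ∈ A) (hy : y ∈ A)
    (h'' : ((W.reductionMod ℓ)⁄(IsLocalRing.ResidueField A)).Nonsingular
      (rr A ⟨x, hx⟩) (rr A ⟨y, hy⟩)) :
    redPts (ℓ := ℓ) hΔ (Point.some x y h) = Point.some _ _ h'' := by
  rw [redPts_apply, pointCast_some, redFun_some_of_mem hΔ _ hx hy, pointCast_some]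

lemma redPts_some_of_not_mem {x y : Qb} (h : ((W.map (Int.castRingHom ℚ))⁄Qb).Nonsingular x y)
    (hx : x ∉ A) : redPts (ℓ := ℓ) hΔ (Point.some x y h) = 0 := by
  rw [redPts_apply, pointCast_some, redFun_some_of_not_mem hΔ _ hx, _root_.map_zero]

lemma nonsingular_red (hΔ : IsUnit (WA W A).Δ) {x y : Qb} (h : ((W.map (Int.castRingHom ℚ))⁄Qb).Nonsingular x y)
    (hx : x ∈ A) (hy : y ∈ A) :
    ((W.reductionMod ℓ)⁄(IsLocalRing.ResidueField A)).Nonsingular
      (rr A ⟨x, hx⟩) (rr A ⟨y, hy⟩) := by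
  have h' : ((WA W A)⁄Qb).Nonsingular x y := (curveK W A).symm ▸ h
  have := nonsingular_κ A (WA W A) hΔ (x := ⟨x, hx⟩) (y := ⟨y, hy⟩) h'.1
  exact (curveκ W ℓ A) ▸ this

lemma mem_y_Pts {x y : Qb} (h : ((W.map (Int.castRingHom ℚ))⁄Qb).Nonsingular x y)
    (hx : x ∈ A) : y ∈ A := by
  have h' : ((WA W A)⁄Qb).Nonsingular x y := (curveK W A).symm ▸ h
  exact mem_y A (WA W A) h'.1 hx

/-- the kernel of `redPts` on `n`-torsion is trivial when `ℓ ∤ n` -/
theorem redPts_injective_on_torsion (hA : A.LiesOverPrime ℓ) {n : ℕ} (hn : ¬ ℓ ∣ n)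
    (P : Pts W) (hP : (n : ℤ) • P = 0) (h0 : redPts (ℓ := ℓ) hΔ P = 0) : P = 0 := by
  rw [redPts_apply] at h0
  have h1 : redFun A (WA W A) hΔ (pointCast (curveK W A).symm P) = 0 := by
    have := congrArg (pointCast (curveκ W ℓ A)).symm h0
    simpa using this
  have hker := (redFun_eq_zero_iff hΔ _).mp h1
  have hn1 : A.valuation ((n : ℕ) : Qb) = 1 := val_natCast_eq_one A (Fact.out : ℓ.Prime) hA hn
  have hP' : (n : ℤ) • (pointCast (curveK W A).symm P) = 0 := by
    rw [← map_zsmul, hP, _root_.map_zero]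
  have := Fermat.Agent.S05.C1b.eq_zero_of_inKer_of_zsmul_eq_zero (integralCoeffs A (WA W A)) n hn1
    _ hker hP'
  exact (AddEquiv.map_eq_zero_iff _).mp this

end

/-! ### Frobenius -/

section frob

open Pointwise

variable {W ℓ A}

lemma apply_mem_of_mem_decomp {σ : Qb ≃ₐ[ℚ] Qb} (hσ : σ ∈ A.decompositionSubgroup ℚ) {x : Qb}
    (hx : x ∈ A) : σ x ∈ A := by
  have h : σ • A = A := hσ
  have := ValuationSubring.smul_mem_pointwise_smul σ x A hx
  rw [h] at this
  exact this

lemma mem_of_apply_mem_decomp {σ : Qb ≃ₐ[ℚ] Qb} (hσ : σ ∈ A.decompositionSubgroup ℚ) {x : Qb}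
    (hx : σ x ∈ A) : x ∈ A := by
  have h := apply_mem_of_mem_decomp (A := A) (inv_mem hσ) hx
  have e : σ⁻¹ (σ x) = x := by
    show σ.symm (σ x) = x
    exact σ.symm_apply_apply x
  rwa [e] at h

lemma residue_apply_of_isFrobeniusAt {σ : Qb ≃ₐ[ℚ] Qb} (hσ : A.IsFrobeniusAt σ ℓ) {x : Qb}
    (hx : x ∈ A) :
    rr A ⟨σ x, apply_mem_of_mem_decomp hσ.mem_decompositionSubgroup hx⟩ = (rr A ⟨x, hx⟩) ^ ℓ := by
  have h := hσ.smul_residue_eq (rr A ⟨x, hx⟩)
  rw [← h]
  rfl

variable [DecidableEq (IsLocalRing.ResidueField A)] [Algebra (ZMod ℓ) (IsLocalRing.ResidueField A)]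
variable (hΔ : IsUnit (WA W A).Δ)

theorem redPts_smul {σ : Qb ≃ₐ[ℚ] Qb} (hσ : A.IsFrobeniusAt σ ℓ) (P : Pts W) :
    redPts (ℓ := ℓ) hΔ (σ • P) =
      frobPt ℓ (W.reductionMod ℓ) (IsLocalRing.ResidueField A) (redPts (ℓ := ℓ) hΔ P) := by
  rcases P with _ | ⟨x, y, h⟩
  · have e : σ • (Point.zero : Pts W) = (0 : Pts W) := rfl
    rw [e]
    change redPts (ℓ := ℓ) hΔ 0 = frobPt ℓ (W.reductionMod ℓ) _ (redPts (ℓ := ℓ) hΔ 0)
    rw [_root_.map_zero, _root_.map_zero]
  · have hσh : ((W.map (Int.castRingHom ℚ))⁄Qb).Nonsingular (σ x) (σ y) :=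
      ((W.map (Int.castRingHom ℚ)).toAffine.baseChange_nonsingular
          σ.toAlgHom.injective x y).mpr h
    have hsm : σ • (Point.some x y h : Pts W) = Point.some (σ x) (σ y) hσh := rfl
    rw [hsm]
    by_cases hx : x ∈ A
    · have hy : y ∈ A := mem_y_Pts h hx
      have hσx := apply_mem_of_mem_decomp hσ.mem_decompositionSubgroup hx
      have hσy := apply_mem_of_mem_decomp hσ.mem_decompositionSubgroup hy
      rw [redPts_some_of_mem hΔ hσh hσx hσy (nonsingular_red hΔ hσh hσx hσy),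
        redPts_some_of_mem hΔ h hx hy (nonsingular_red hΔ h hx hy)]
      unfold frobPt
      rw [Point.map_some]
      refine some_congr ?_ ?_ _ _
      · rw [residue_apply_of_isFrobeniusAt hσ hx, FiniteField.coe_frobeniusAlgHom, ZMod.card]
      · rw [residue_apply_of_isFrobeniusAt hσ hy, FiniteField.coe_frobeniusAlgHom, ZMod.card]
    · have hσx : σ x ∉ A := fun h' => hx (mem_of_apply_mem_decomp hσ.mem_decompositionSubgroup h')
      rw [redPts_some_of_not_mem hΔ hσh hσx, redPts_some_of_not_mem hΔ h hx, _root_.map_zero]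

end frob

end Fermat.Agent.Lib.Frob.A1.H382

namespace Fermat.Agent.Lib.Frob

open Fermat.Agent.Lib.Frob.A1.H382 in
/-- **Piece A1** (helper382's proof). -/
theorem A1.H382.reductionData : ReductionData := by
  intro W ℓ _ hgood A σ hA hσ n hn0 hn
  have : CharP (IsLocalRing.ResidueField A) ℓ := charP_residueField A (Fact.out : ℓ.Prime) hA
  let _ : Algebra (ZMod ℓ) (IsLocalRing.ResidueField A) := ZMod.algebra _ ℓ
  let _ : DecidableEq (IsLocalRing.ResidueField A) := Classical.decEq _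
  have hΔ := isUnit_Δ W ℓ A hA hgood
  refine ⟨IsLocalRing.ResidueField A, inferInstance, inferInstance, inferInstance,
    (redPts (ℓ := ℓ) hΔ).comp (Submodule.torsionBy ℤ (Pts W) n).subtype.toAddMonoidHom, ?_, ?_⟩
  · rw [injective_iff_map_eq_zero]
    intro P hP
    apply Subtype.ext
    have hP' : (n : ℤ) • (P : Pts W) = 0 := by
      have := P.2
      rwa [Submodule.mem_torsionBy_iff] at this
    exact redPts_injective_on_torsion hΔ hA hn (P : Pts W) hP' hP
  · intro P
    exact redPts_smul hΔ hσ (P : Pts W)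

end Fermat.Agent.Lib.Frob
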